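/-
PROJECT R (S43), GATE G2* / LG1Hyp, producer (W): THE SEAM FOR THE `r`-PART FRICKE AUTOMORPHISM
of `ℚ̄(X₁(N r))` (helper17, gate owner).

Model = `S48/B/Defs/Model.F1 (N r) ⊆ ℚ((q))`, the cusp `(Tate(q^{N r}), q)` (the point of order
`N r` is the ETALE one, all expansions are rational, the Galois action is coefficientwise).
`w = w_r` is `(E, P_N, P_r) ↦ (E/⟨P_r⟩, P_N mod ⟨P_r⟩, Q_r mod ⟨P_r⟩)`, `e_r(P_r, Q_r) = ζ_r`; it is
defined over `ℚ(ζ_r)` only.  In the model: `E = Tate(q^{N r})`, `E/⟨P_r⟩ = Tate(q^N)`, `Q_r ∈ μ_r`.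

`HasFricke N r` : there is an automorphism `w` of `F1Bar (N r)` over `ℚ̄` with
* `swap`  : `w` exchanges `j(q^{N r}) = j(E)` and `j(q^N) = j(E/⟨P_r⟩)`;
* `hwδ`   : `w ⟨d⟩ = ⟨d⟩⁻¹ w` for the diamonds of the `r`-part (`d ≡ 1 mod N`);
* `hgw`   : `σ w = w ⟨d⟩ σ` for every `σ ∈ Gal(ℚ̄/ℚ)` acting on `μ_r` by `ζ ↦ ζ^d`, `d ≡ 1 mod N`
  (Galois conjugation of the coefficients of the expansion at the other cusp IS `h_a ↦ h_{d a}`).

These are literally the hypotheses `hwδ`, `hgw` of `S43/LG1/OfFricke.cube_eq_zero_of_fricke`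
(helper4); `swap` gives `hne` (the two Gauss branches are distinct: `j(q^{N r}) - j(q^N)^r` is in
the maximal ideal of the rational branch and is a unit of the other one).
Producer: the analytic Atkin-Lehner slash (helper16: `RepEq` on main makes `ℂ·F1` the field of ALL
quotients of forms on `Γ₁(N r)`, which the slash by `W_r` preserves) + descent to `ℚ̄`.
-/
import Mathlib
import Fermat.Prelude.Def_ModularCurve_ArithmeticGalois
import Fermat.Agent.S48.B.Defs.Model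

set_option autoImplicit false

noncomputable section

namespace Fermat.Agent.S43.LG1.Fricke.Seam

open ModularCurve AlgebraicCurve Fermat.Agent.S48.B.Defs.Model

local notation "Kb" => AlgebraicClosure ℚ

/-- `N r ≠ 0` (all `NeZero` instances are propositionally equal) -/
local instance instNeZeroMul (N r : ℕ) [NeZero N] [NeZero r] : NeZero (N * r) :=
  ⟨Nat.mul_ne_zero (NeZero.ne N) (NeZero.ne r)⟩

variable (N r : ℕ) [NeZero N] [NeZero r]

/-- `d` is a unit of `ℤ/N r` of the `r`-part: `d ≡ 1 mod N` -/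
def IsRPart (d : (ZMod (N * r))ˣ) : Prop := (((d : ZMod (N * r)).val : ℕ) : ZMod N) = 1

/-- `σ` acts on the `r`-th roots of unity through `d` -/
def ActsOnMu (σ : Kb ≃ₐ[ℚ] Kb) (d : (ZMod (N * r))ˣ) : Prop :=
  ∀ ζ : Kb, ζ ^ r = 1 → σ ζ = ζ ^ (d : ZMod (N * r)).val

/-- **the seam (W)**: the `r`-part Fricke automorphism of `ℚ̄(X₁(N r))` -/
def HasFricke : Prop :=
  ∃ w : F1Bar (N * r) ≃ₐ[Kb] F1Bar (N * r),
    (∀ y y' : F1Bar (N * r),
      (y : LaurentSeries Kb) = coeffEmb Kb (qExpand ℚ (N * r) jq) →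
      (y' : LaurentSeries Kb) = coeffEmb Kb (qExpand ℚ N jq) → w y = y' ∧ w y' = y) ∧
    (∀ (d : (ZMod (N * r))ˣ) (δ : F1Bar (N * r) ≃ₐ[Kb] F1Bar (N * r)),
      IsDiamondAut (N * r) Kb d δ → IsRPart N r d → ∀ x, w (δ x) = δ.symm (w x)) ∧
    (∀ (σ : Kb ≃ₐ[ℚ] Kb) (d : (ZMod (N * r))ˣ) (δ : F1Bar (N * r) ≃ₐ[Kb] F1Bar (N * r)),
      IsDiamondAut (N * r) Kb d δ → IsRPart N r d → ActsOnMu N r σ d →
      ∀ x, arithmeticGalois (F1 (N * r)) σ • w x =
        w (δ (arithmeticGalois (F1 (N * r)) σ • x)))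

end Fermat.Agent.S43.LG1.Fricke.Seam
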